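import Fermat.Agent.S17.AE.Main

/-!
# S17 height engine: the global (ADD) theorem
-/

set_option autoImplicit false

namespace Fermat.Agent.S17Lib

open Matrix Height Height.AdmissibleAbsValues

variable {K : Type*} [Field K]

/-- Segre product of three vectors. -/
def AEseg {α β γ : Type*} (x : α → K) (y : β → K) (z : γ → K) : (α × β) × γ → K :=
  fun a => x a.1.1 * y a.1.2 * z a.2

theorem AE_seg_sup (v : AbsoluteValue K ℝ) {α β γ : Type*} [Finite α] [Finite β] [Finite γ]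
    (x : α → K) (y : β → K) (z : γ → K) :
    ⨆ a, v (AEseg x y z a) = (⨆ i, v (x i)) * (⨆ i, v (y i)) * (⨆ i, v (z i)) := by
  have h1 := Real.iSup_fun_mul_eq_iSup_mul_iSup_of_nonneg v (fun a : α × β => x a.1 * y a.2) z
  have h2 := Real.iSup_fun_mul_eq_iSup_mul_iSup_of_nonneg v x y
  rw [← h2, ← h1]
  rfl

theorem AE_seg_ne_zero {α β γ : Type*} {x : α → K} {y : β → K} {z : γ → K}
    (hx : x ≠ 0) (hy : y ≠ 0) (hz : z ≠ 0) : AEseg x y z ≠ 0 := by
  obtain ⟨i, hi⟩ := Function.ne_iff.mp hx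
  obtain ⟨j, hj⟩ := Function.ne_iff.mp hy
  obtain ⟨l, hl⟩ := Function.ne_iff.mp hz
  exact Function.ne_iff.mpr ⟨((i, j), l), mul_ne_zero (mul_ne_zero hi hj) hl⟩

theorem AE_seg_logHeight [AdmissibleAbsValues K] {α β γ : Type*} [Finite α] [Finite β] [Finite γ]
    {x : α → K} {y : β → K} {z : γ → K} (hx : x ≠ 0) (hy : y ≠ 0) (hz : z ≠ 0) :
    logHeight (AEseg x y z) = logHeight x + logHeight y + logHeight z := by
  have hxy : (fun a : α × β => x a.1 * y a.2) ≠ 0 := by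
    obtain ⟨i, hi⟩ := Function.ne_iff.mp hx
    obtain ⟨j, hj⟩ := Function.ne_iff.mp hy
    exact Function.ne_iff.mpr ⟨(i, j), mul_ne_zero hi hj⟩
  rw [← logHeight_fun_mul_eq hx hy, ← logHeight_fun_mul_eq hxy hz]
  rfl

theorem AE_ctr_ne_zero {k : ℕ} {ι : Type*} [Finite ι] (M : Matrix (Fin k) ι K) (hM : AEpl M ≠ 0)
    (p : Fin k → K) (hp : p ≠ 0) : AEctr M p ≠ 0 := by
  classical
  obtain ⟨g, I₀, hg, he, -, -⟩ := AE_exists_echelon (AbsoluteValue.trivial (R := K) (S := ℝ)) M hM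
  have hgu : IsUnit g.det := isUnit_iff_ne_zero.mpr hg
  have hgp : g.mulVec p ≠ 0 := by
    intro h
    apply hp
    have : g⁻¹.mulVec (g.mulVec p) = 0 := by rw [h, Matrix.mulVec_zero]
    rwa [Matrix.mulVec_mulVec, Matrix.nonsing_inv_mul _ hgu, Matrix.one_mulVec] at this
  obtain ⟨i, hi⟩ := Function.ne_iff.mp hgp
  intro h0
  apply hi
  rw [AE_val_eq_ctr _ I₀ he (g.mulVec p) i, AE_ctr_mul, h0]
  simp

/-- the constant of the engine -/
noncomputable def AEconst (k₁ k₂ c n₁ n₂ : ℕ) (Cμ Cq : ℝ) : ℝ :=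
  Real.log (Cq * ((k₁.factorial * k₂.factorial * c.factorial * (c + 1) : ℕ) : ℝ) ^ 2
    * (((n₁ * n₂ : ℕ) : ℝ) * Cμ) ^ (c + 1))

theorem AE_add [AdmissibleAbsValues K] {k₁ k₂ c : ℕ} {ι₁ ι₂ ι₃ : Type*}
    [Fintype ι₁] [Fintype ι₂] [Fintype ι₃]
    (μ : ι₁ → ι₂ → ι₃ → K) (Cμ Cq : ℝ) (hCμ : 1 ≤ Cμ) (hCq : 1 ≤ Cq)
    (hμa : ∀ v ∈ archAbsVal (K := K), ∀ x y l, v (μ x y l) ≤ Cμ)
    (hμn : ∀ v ∈ nonarchAbsVal (K := K), ∀ x y l, v (μ x y l) ≤ 1)
    (MA : Matrix (Fin k₁) ι₁ K) (MB : Matrix (Fin k₂) ι₂ K) (MC : Matrix (Fin c) ι₃ K)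
    (hA : AEpl MA ≠ 0) (hB : AEpl MB ≠ 0) (hC : AEpl MC ≠ 0)
    (τ : Matrix (Fin k₁ × Fin k₂) (Fin c) K) (hτ : AEprod μ MA MB = τ * MC)
    (pA : Fin k₁ → K) (pB : Fin k₂ → K) (pC : Fin c → K) (hpA : pA ≠ 0) (hpB : pB ≠ 0)
    (hp : τ.mulVec pC = fun ij => pA ij.1 * pB ij.2)
    (d : K) (hd : d ≠ 0)
    (hca : ∀ v ∈ archAbsVal (K := K), ∀ (gA : Matrix (Fin k₁) (Fin k₁) K)
      (gB : Matrix (Fin k₂) (Fin k₂) K) (I₀ : Fin k₁ → ι₁) (J₀ : Fin k₂ → ι₂),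
      (gA * MA).submatrix id I₀ = 1 → (gB * MB).submatrix id J₀ = 1 →
      (∀ i x, v ((gA * MA) i x) ≤ 1) → (∀ j y, v ((gB * MB) j y) ≤ 1) →
      ∃ (T : Fin c → Fin k₁ × Fin k₂) (L : Fin c → ι₃),
        v d ≤ Cq * v ((AEprod μ (gA * MA) (gB * MB)).submatrix T L).det)
    (hcn : ∀ v ∈ nonarchAbsVal (K := K), ∀ (gA : Matrix (Fin k₁) (Fin k₁) K)
      (gB : Matrix (Fin k₂) (Fin k₂) K) (I₀ : Fin k₁ → ι₁) (J₀ : Fin k₂ → ι₂),
      (gA * MA).submatrix id I₀ = 1 → (gB * MB).submatrix id J₀ = 1 →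
      (∀ i x, v ((gA * MA) i x) ≤ 1) → (∀ j y, v ((gB * MB) j y) ≤ 1) →
      ∃ (T : Fin c → Fin k₁ × Fin k₂) (L : Fin c → ι₃),
        v d ≤ v ((AEprod μ (gA * MA) (gB * MB)).submatrix T L).det) :
    |(logHeight (AEctr MC pC) - logHeight (AEpl MC))
      - (logHeight (AEctr MA pA) - logHeight (AEpl MA))
      - (logHeight (AEctr MB pB) - logHeight (AEpl MB))|
      ≤ totalWeight K * AEconst k₁ k₂ c (Fintype.card ι₁) (Fintype.card ι₂) Cμ Cq := by
  classical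
  -- nonemptiness
  obtain ⟨i₁, -⟩ := Function.ne_iff.mp hpA
  obtain ⟨j₁, -⟩ := Function.ne_iff.mp hpB
  obtain ⟨I₁, -⟩ := Function.ne_iff.mp hA
  obtain ⟨J₁, -⟩ := Function.ne_iff.mp hB
  have : Nonempty ι₁ := ⟨I₁ i₁⟩
  have : Nonempty ι₂ := ⟨J₁ j₁⟩
  have hpC : pC ≠ 0 := by
    rintro rfl
    obtain ⟨i, hi⟩ := Function.ne_iff.mp hpA
    obtain ⟨j, hj⟩ := Function.ne_iff.mp hpB
    have := congrFun hp (i, j)
    rw [Matrix.mulVec_zero] at this
    exact mul_ne_zero hi hj this.symm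
  have hcA := AE_ctr_ne_zero MA hA pA hpA
  have hcB := AE_ctr_ne_zero MB hB pB hpB
  have hcC := AE_ctr_ne_zero MC hC pC hpC
  set n12 : ℝ := ((Fintype.card ι₁ * Fintype.card ι₂ : ℕ) : ℝ) with hn12
  have hn1 : (1 : ℝ) ≤ n12 := by
    rw [hn12]
    exact_mod_cast Nat.mul_pos (Fintype.card_pos (α := ι₁)) (Fintype.card_pos (α := ι₂))
  set C0 : ℝ := Cq * ((k₁.factorial * k₂.factorial * c.factorial * (c + 1) : ℕ) : ℝ) ^ 2
    * (n12 * Cμ) ^ (c + 1) with hC0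
  have hfac : (1 : ℝ) ≤ ((k₁.factorial * k₂.factorial * c.factorial * (c + 1) : ℕ) : ℝ) := by
    exact_mod_cast Nat.mul_pos (Nat.mul_pos (Nat.mul_pos (Nat.factorial_pos _)
      (Nat.factorial_pos _)) (Nat.factorial_pos _)) (Nat.succ_pos _)
  have hnC : 1 ≤ n12 * Cμ := by nlinarith
  set F : ℝ := ((k₁.factorial * k₂.factorial * c.factorial * (c + 1) : ℕ) : ℝ) with hF
  have hFsq : F ≤ F ^ 2 := by nlinarith
  have hF1 : ((k₁.factorial * k₂.factorial * c : ℕ) : ℝ) ≤ F ^ 2 := by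
    refine le_trans ?_ hFsq
    rw [hF]
    have h1 : c ≤ c.factorial * (c + 1) := by
      have := Nat.factorial_pos c
      nlinarith
    have : k₁.factorial * k₂.factorial * c ≤ k₁.factorial * k₂.factorial * c.factorial * (c + 1) := by
      rw [Nat.mul_assoc (k₁.factorial * k₂.factorial)]
      exact Nat.mul_le_mul_left _ h1
    exact_mod_cast this
  have hF2 : ((c.factorial * c.factorial : ℕ) : ℝ) ≤ F ^ 2 := by
    have h1 : c.factorial ≤ k₁.factorial * k₂.factorial * c.factorial * (c + 1) := by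
      have a1 := Nat.factorial_pos k₁
      have a2 := Nat.factorial_pos k₂
      have a3 : 1 ≤ k₁.factorial * k₂.factorial := Nat.mul_pos a1 a2
      calc c.factorial = 1 * c.factorial * 1 := by ring
        _ ≤ k₁.factorial * k₂.factorial * c.factorial * (c + 1) := by
          gcongr
          omega
    have h2 : ((c.factorial : ℕ) : ℝ) ≤ F := by rw [hF]; exact_mod_cast h1
    have h3 : (0 : ℝ) ≤ ((c.factorial : ℕ) : ℝ) := by positivity
    push_cast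
    nlinarith
  set Cge : ℝ := ((k₁.factorial * k₂.factorial * c : ℕ) : ℝ) ^ 1 * (n12 ^ 1 * Cμ) with hCge
  set Cle : ℝ := Cq * ((c.factorial * c.factorial : ℕ) : ℝ) ^ 1 * (n12 ^ 1 * Cμ) ^ c with hCle
  have hC0pos : 0 < C0 := by rw [hC0]; positivity
  have hpow1 : n12 * Cμ ≤ (n12 * Cμ) ^ (c + 1) := by
    calc n12 * Cμ = (n12 * Cμ) ^ 1 := (pow_one _).symm
      _ ≤ (n12 * Cμ) ^ (c + 1) := pow_le_pow_right₀ hnC (by omega)
  have hpow2 : (n12 * Cμ) ^ c ≤ (n12 * Cμ) ^ (c + 1) := pow_le_pow_right₀ hnC (by omega)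
  have hCge_le : Cge ≤ C0 := by
    rw [hCge, hC0, pow_one, pow_one]
    calc ((k₁.factorial * k₂.factorial * c : ℕ) : ℝ) * (n12 * Cμ)
        ≤ F ^ 2 * (n12 * Cμ) ^ (c + 1) := by gcongr
      _ = 1 * F ^ 2 * (n12 * Cμ) ^ (c + 1) := by ring
      _ ≤ Cq * F ^ 2 * (n12 * Cμ) ^ (c + 1) := by gcongr
  have hCle_le : Cle ≤ C0 := by
    rw [hCle, hC0, pow_one, pow_one]
    gcongr
  have hCge0 : 0 ≤ Cge := by rw [hCge]; positivity
  have hCle0 : 0 ≤ Cle := by rw [hCle]; positivity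
  -- the two Segre vectors
  set y := AEseg (AEctr MA pA) (AEctr MB pB) (AEpl MC) with hy
  set x := AEseg (AEpl MA) (AEpl MB) (AEctr MC pC) with hx
  have hy0 : y ≠ 0 := AE_seg_ne_zero hcA hcB hC
  have hx0 : x ≠ 0 := AE_seg_ne_zero hA hB hcC
  have harch : ∀ v ∈ archAbsVal (K := K), _ := fun v hv =>
    AE_local (θ := 1) (v := v) (Or.inl rfl) μ Cμ Cq hCμ (le_trans zero_le_one hCq) (hμa v hv)
      MA MB MC hA hB hC τ hτ pA pB pC hp d (hca v hv)
  have hnon : ∀ v ∈ nonarchAbsVal (K := K), _ := fun v hv =>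
    AE_local (θ := 0) (v := v) (Or.inr ⟨rfl, isNonarchimedean v hv⟩) μ 1 1 le_rfl zero_le_one
      (hμn v hv) MA MB MC hA hB hC τ hτ pA pB pC hp d (fun gA gB I₀ J₀ h1 h2 h3 h4 => by
        obtain ⟨T, L, h⟩ := hcn v hv gA gB I₀ J₀ h1 h2 h3 h4
        exact ⟨T, L, by simpa using h⟩)
  have H1 : mulHeight y ≤ C0 ^ totalWeight K * mulHeight x := by
    refine AE_l2g x y hx0 hy0 1 one_ne_zero C0 hC0pos.le (fun v hv => ?_) (fun v hv => ?_)
    · rw [map_one, one_mul, hy, hx, AE_seg_sup, AE_seg_sup]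
      refine (harch v hv).1.trans ?_
      gcongr
      exact mul_nonneg (mul_nonneg (AE_sup_nonneg v _) (AE_sup_nonneg v _)) (AE_sup_nonneg v _)
    · rw [map_one, one_mul, hy, hx, AE_seg_sup, AE_seg_sup]
      simpa using (hnon v hv).1
  have H2 : mulHeight x ≤ C0 ^ totalWeight K * mulHeight y := by
    refine AE_l2g y x hy0 hx0 d hd C0 hC0pos.le (fun v hv => ?_) (fun v hv => ?_)
    · rw [hy, hx, AE_seg_sup, AE_seg_sup]
      refine (harch v hv).2.trans ?_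
      gcongr
      exact mul_nonneg (mul_nonneg (AE_sup_nonneg v _) (AE_sup_nonneg v _)) (AE_sup_nonneg v _)
    · rw [hy, hx, AE_seg_sup, AE_seg_sup]
      simpa using (hnon v hv).2
  have L1 : logHeight y ≤ totalWeight K * Real.log C0 + logHeight x := by
    rw [logHeight_eq_log_mulHeight, logHeight_eq_log_mulHeight, ← Real.log_pow,
      ← Real.log_mul (by positivity) (mulHeight_ne_zero _)]
    exact Real.log_le_log (mulHeight_pos _) H1
  have L2 : logHeight x ≤ totalWeight K * Real.log C0 + logHeight y := by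
    rw [logHeight_eq_log_mulHeight, logHeight_eq_log_mulHeight, ← Real.log_pow,
      ← Real.log_mul (by positivity) (mulHeight_ne_zero _)]
    exact Real.log_le_log (mulHeight_pos _) H2
  rw [hy, AE_seg_logHeight hcA hcB hC, hx, AE_seg_logHeight hA hB hcC] at L1 L2
  have hconst : AEconst k₁ k₂ c (Fintype.card ι₁) (Fintype.card ι₂) Cμ Cq = Real.log C0 := rfl
  rw [hconst, abs_le]
  constructor <;> linarith

end Fermat.Agent.S17Lib
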