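import Fermat.Agent.S17.AE.Defs

/-!
# S17 height engine: basic local estimates and echelon forms
-/

set_option autoImplicit false

namespace Fermat.Agent.S17Lib

open Matrix

variable {K : Type*} [Field K]

/-- `θ = 1`: any absolute value; `θ = 0`: nonarchimedean absolute value. -/
def AEtype (v : AbsoluteValue K ℝ) (θ : ℕ) : Prop := θ = 1 ∨ (θ = 0 ∧ IsNonarchimedean v)

theorem AE_sum_le {v : AbsoluteValue K ℝ} {θ : ℕ} (hθ : AEtype v θ) {α : Type*} (s : Finset α)
    (f : α → K) (B : ℝ) (hB : 0 ≤ B) (hf : ∀ i ∈ s, v (f i) ≤ B) :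
    v (∑ i ∈ s, f i) ≤ (s.card : ℝ) ^ θ * B := by
  rcases hθ with rfl | ⟨rfl, hv⟩
  · calc v (∑ i ∈ s, f i) ≤ ∑ i ∈ s, v (f i) := v.sum_le _ _
      _ ≤ ∑ _i ∈ s, B := Finset.sum_le_sum hf
      _ = (s.card : ℝ) ^ 1 * B := by simp
  · simp only [pow_zero, one_mul]
    classical
    induction s using Finset.induction_on with
    | empty => simpa using hB
    | insert a s ha ih =>
      rw [Finset.sum_insert ha]
      refine (hv _ _).trans (max_le (hf a (Finset.mem_insert_self _ _)) ?_)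
      exact ih fun i hi => hf i (Finset.mem_insert_of_mem hi)

theorem AE_abv_neg_one_pow_smul (v : AbsoluteValue K ℝ) {n : ℕ} (σ : Equiv.Perm (Fin n)) (x : K) :
    v (Equiv.Perm.sign σ • x) = v x := by
  rcases Int.units_eq_one_or (Equiv.Perm.sign σ) with h | h <;> simp [h]

/-- determinant bound with one distinguished column. -/
theorem AE_det_updateCol_le {v : AbsoluteValue K ℝ} {θ : ℕ} (hθ : AEtype v θ) {n : ℕ}
    (M : Matrix (Fin n) (Fin n) K) (r : Fin n) (q : Fin n → K) (X Y : ℝ) (hX : 0 ≤ X) (hY : 1 ≤ Y)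
    (hM : ∀ i j, v (M i j) ≤ Y) (hq : ∀ i, v (q i) ≤ X) :
    v ((M.updateCol r q).det) ≤ ((n.factorial : ℕ) : ℝ) ^ θ * (X * Y ^ n) := by
  have hY0 : 0 ≤ Y := le_trans zero_le_one hY
  rw [Matrix.det_apply]
  have h := AE_sum_le hθ (Finset.univ : Finset (Equiv.Perm (Fin n)))
    (fun σ => Equiv.Perm.sign σ • ∏ i, (M.updateCol r q) (σ i) i) (X * Y ^ n)
    (mul_nonneg hX (pow_nonneg hY0 _)) ?_
  · simpa [Finset.card_univ, Fintype.card_perm] using h
  · intro σ _
    rw [AE_abv_neg_one_pow_smul, map_prod]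
    calc ∏ i, v ((M.updateCol r q) (σ i) i) ≤ ∏ i : Fin n, (if i = r then X else Y) := by
          refine Finset.prod_le_prod (fun i _ => v.nonneg _) fun i _ => ?_
          by_cases hi : i = r
          · subst hi; simpa using hq _
          · simpa [Matrix.updateCol_apply, hi] using hM _ _
      _ = X * ∏ i ∈ (Finset.univ : Finset (Fin n)).erase r, (if i = r then X else Y) := by
          rw [← Finset.mul_prod_erase _ _ (Finset.mem_univ r)]; simp
      _ = X * Y ^ (n - 1) := by
          congr 1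
          rw [Finset.prod_congr rfl (g := fun _ => Y)
            (fun i hi => by simp [Finset.ne_of_mem_erase hi])]
          simp [Finset.card_erase_of_mem]
      _ ≤ X * Y ^ n := by
          gcongr
          omega

theorem AE_submatrix_mul {k : ℕ} {ι : Type*} (g : Matrix (Fin k) (Fin k) K)
    (M : Matrix (Fin k) ι K) {m : Type*} (I : m → ι) :
    (g * M).submatrix id I = g * M.submatrix id I := by
  ext i j; simp [Matrix.mul_apply]

theorem AE_pl_mul {k : ℕ} {ι : Type*} (g : Matrix (Fin k) (Fin k) K) (M : Matrix (Fin k) ι K) :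
    AEpl (g * M) = g.det • AEpl M := by
  funext I
  simp [AEpl, AE_submatrix_mul, Matrix.det_mul]

theorem AE_ctr_mul {k : ℕ} {ι : Type*} (g : Matrix (Fin k) (Fin k) K) (M : Matrix (Fin k) ι K)
    (p : Fin k → K) : AEctr (g * M) (g.mulVec p) = g.det • AEctr M p := by
  funext ⟨I, i⟩
  have : ((g * M).submatrix id I).updateCol i (g.mulVec p)
      = g * (M.submatrix id I).updateCol i p := by
    ext r j
    by_cases hj : j = i
    · subst hj; simp [Matrix.mul_apply, Matrix.mulVec, dotProduct]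
    · simp [Matrix.mul_apply, Matrix.updateCol_apply, hj]
  simp [AEctr, this, Matrix.det_mul]

/-- in an echelon matrix the entries are Pluecker coordinates. -/
theorem AE_entry_eq_pl {k : ℕ} {ι : Type*} [DecidableEq ι] (N : Matrix (Fin k) ι K) (I₀ : Fin k → ι)
    (h : N.submatrix id I₀ = 1) (i : Fin k) (x : ι) :
    N i x = AEpl N (Function.update I₀ i x) := by
  have : N.submatrix id (Function.update I₀ i x)
      = (1 : Matrix (Fin k) (Fin k) K).updateCol i (fun r => N r x) := by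
    rw [← h]
    ext r j
    by_cases hj : j = i
    · subst hj; simp
    · simp [Matrix.updateCol_apply, hj, Function.update_of_ne hj]
  rw [AEpl, this, ← Matrix.cramer_apply, Matrix.cramer_one]
  rfl

theorem AE_val_eq_ctr {k : ℕ} {ι : Type*} (N : Matrix (Fin k) ι K) (I₀ : Fin k → ι)
    (h : N.submatrix id I₀ = 1) (q : Fin k → K) (i : Fin k) :
    q i = AEctr N q (I₀, i) := by
  simp only [AEctr]
  rw [h, ← Matrix.cramer_apply, Matrix.cramer_one]
  rfl

/-- existence of the `v`-echelon form. -/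
theorem AE_exists_echelon (v : AbsoluteValue K ℝ) {k : ℕ} {ι : Type*} [Finite ι]
    (M : Matrix (Fin k) ι K) (hM : AEpl M ≠ 0) :
    ∃ (g : Matrix (Fin k) (Fin k) K) (I₀ : Fin k → ι), g.det ≠ 0 ∧
      (g * M).submatrix id I₀ = 1 ∧ (∀ i x, v ((g * M) i x) ≤ 1) ∧
      (∀ I, v (AEpl (g * M) I) ≤ 1) := by
  classical
  obtain ⟨I₁, hI₁⟩ := Function.ne_iff.mp hM
  haveI : Nonempty (Fin k → ι) := ⟨I₁⟩
  obtain ⟨I₀, hI₀⟩ := Finite.exists_max (fun I => v (AEpl M I))
  have h0 : AEpl M I₀ ≠ 0 := by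
    intro h
    have := hI₀ I₁
    rw [h, map_zero] at this
    exact hI₁ (v.eq_zero.mp (le_antisymm this (v.nonneg _)))
  set X := M.submatrix id I₀ with hX
  have hXdet : X.det ≠ 0 := h0
  have hXu : IsUnit X.det := isUnit_iff_ne_zero.mpr hXdet
  have hech : (X⁻¹ * M).submatrix id I₀ = 1 := by
    rw [AE_submatrix_mul, ← hX, Matrix.nonsing_inv_mul _ hXu]
  have hpl : ∀ I, v (AEpl (X⁻¹ * M) I) ≤ 1 := by
    intro I
    rw [AE_pl_mul]
    simp only [Pi.smul_apply, smul_eq_mul, map_mul, Matrix.det_nonsing_inv, Ring.inverse_eq_inv',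
      map_inv₀]
    have hpos : 0 < v X.det := v.pos hXdet
    rw [inv_mul_le_iff₀ hpos, mul_one]
    exact hI₀ I
  refine ⟨X⁻¹, I₀, ?_, hech, ?_, hpl⟩
  · rw [Matrix.det_nonsing_inv, Ring.inverse_eq_inv']; exact inv_ne_zero hXdet
  · intro i x
    rw [AE_entry_eq_pl _ I₀ hech i x]
    exact hpl _

end Fermat.Agent.S17Lib
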