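import Mathlib

/-!
# S17 height engine (ADD): definitions

Pure Mathlib.  Pluecker vectors of matrices (indexed by ALL index maps), contraction of a
Pluecker vector by a functional (given by its values on the rows), product matrices.
-/

set_option autoImplicit false

namespace Fermat.Agent.S17Lib

open Matrix

variable {K : Type*} [Field K]

/-- Pluecker vector of the row space of `M`, indexed by all maps `Fin k → ι`. -/
noncomputable def AEpl {k : ℕ} {ι : Type*} (M : Matrix (Fin k) ι K) : (Fin k → ι) → K :=
  fun I => (M.submatrix id I).det

/-- Contraction of the Pluecker vector of `M` by the functional on the row space whose values on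
the rows are `p`: up to sign and repetitions the Pluecker vector of the kernel of the functional. -/
noncomputable def AEctr {k : ℕ} {ι : Type*} (M : Matrix (Fin k) ι K) (p : Fin k → K) :
    (Fin k → ι) × Fin k → K :=
  fun Ii => ((M.submatrix id Ii.1).updateCol Ii.2 p).det

/-- The matrix of all products (row of `a`) * (row of `b`) for the multiplication with structure
constants `μ`. -/
def AEprod {k₁ k₂ : ℕ} {ι₁ ι₂ ι₃ : Type*} [Fintype ι₁] [Fintype ι₂] (μ : ι₁ → ι₂ → ι₃ → K)
    (a : Matrix (Fin k₁) ι₁ K) (b : Matrix (Fin k₂) ι₂ K) : Matrix (Fin k₁ × Fin k₂) ι₃ K :=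
  fun ij l => ∑ x, ∑ y, a ij.1 x * b ij.2 y * μ x y l

end Fermat.Agent.S17Lib
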