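import Mathlib
import Fermat.Agent.S17.AE.Defs

/-!
# S17 height engine (ADD): two leaves

* `AE_logHeight_pl_mul` : the height of the Pluecker vector does not depend on the basis;
* `AE_logHeight_ctr` : the contraction of the Pluecker vector by a functional has the height of
  the Pluecker vector of the kernel of the functional.
-/

set_option autoImplicit false

namespace Fermat.Agent.S17Lib

open Matrix Height

variable {K : Type*} [Field K]

/-- Pluecker vector of `g * M`. -/
theorem AE_ctr_pl_mul {k : ℕ} {ι : Type*} (M : Matrix (Fin k) ι K)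
    (g : Matrix (Fin k) (Fin k) K) : AEpl (g * M) = g.det • AEpl M := by
  funext I
  simp only [AEpl, Pi.smul_apply, smul_eq_mul]
  rw [← Matrix.det_mul]
  congr 1

/-- Two vectors with the same local sup norms have the same height. -/
theorem AE_ctr_mulHeight_congr [AdmissibleAbsValues K] {α β : Type*} (x : α → K) (y : β → K)
    (h0 : x = 0 ↔ y = 0) (H : ∀ v : AbsoluteValue K ℝ, ⨆ a, v (x a) = ⨆ b, v (y b)) :
    mulHeight x = mulHeight y := by
  by_cases hx : x = 0
  · have hy : y = 0 := h0.1 hx
    subst hx; subst hy; simp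
  · have hy : y ≠ 0 := fun h => hx (h0.2 h)
    rw [mulHeight_eq hx, mulHeight_eq hy]
    simp only [H]

/-- Signs and a surjective reindexing do not change the height. -/
theorem AE_ctr_logHeight_sign_comp [AdmissibleAbsValues K] {α β : Type*} (f : α → β)
    (hf : Function.Surjective f) (e : α → ℕ) (y : β → K) :
    logHeight (fun a => (-1) ^ e a * y (f a)) = logHeight y := by
  unfold logHeight
  congr 1
  apply AE_ctr_mulHeight_congr
  · constructor
    · intro h
      funext b
      obtain ⟨a, rfl⟩ := hf b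
      have := congrFun h a
      simpa using this
    · intro h
      funext a
      simp [h]
  · intro v
    have : ∀ a, v ((-1) ^ e a * y (f a)) = v (y (f a)) := by
      intro a
      rw [map_mul, map_pow, AbsoluteValue.map_neg, map_one, one_pow, one_mul]
    simp only [this]
    exact hf.iSup_comp (g := fun b => v (y b))

theorem AE_logHeight_pl_mul [AdmissibleAbsValues K] {k : ℕ} {ι : Type*} [Finite ι]
    (M : Matrix (Fin k) ι K) (g : Matrix (Fin k) (Fin k) K) (hg : g.det ≠ 0) :
    logHeight (AEpl (g * M)) = logHeight (AEpl M) := by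
  rw [AE_ctr_pl_mul, logHeight_smul_eq_logHeight _ hg]

/-- The key determinant identity. -/
theorem AE_ctr_det {k : ℕ} {ι : Type*} (M : Matrix (Fin (k + 1)) ι K) (p : Fin (k + 1) → K)
    (G : Matrix (Fin k) (Fin (k + 1)) K) (hG : G.mulVec p = 0) (u : Fin (k + 1) → K)
    (hu : u ⬝ᵥ p = 1) (I : Fin (k + 1) → ι) (i : Fin (k + 1)) :
    (Matrix.of (fun r : Fin (k + 1) => Fin.cases u (fun r' => G r') r)).det * AEctr M p (I, i)
      = (-1) ^ (i : ℕ) * AEpl (G * M) (I ∘ i.succAbove) := by
  set Gp : Matrix (Fin (k + 1)) (Fin (k + 1)) K :=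
    Matrix.of (fun r : Fin (k + 1) => Fin.cases u (fun r' => G r') r) with hGp
  have hGpp : Gp.mulVec p = Pi.single 0 1 := by
    funext r
    refine Fin.cases ?_ (fun r' => ?_) r
    · simpa [hGp, Matrix.mulVec] using hu
    · have := congrFun hG r'
      simpa [hGp, Matrix.mulVec] using this
  simp only [AEctr, AEpl]
  rw [← Matrix.det_mul, Matrix.mul_updateCol, hGpp, Matrix.det_succ_column _ i]
  rw [Finset.sum_eq_single 0]
  · simp only [Matrix.updateCol_self, Pi.single_eq_same, mul_one, Fin.val_zero, zero_add]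
    congr 2
    ext a b
    simp only [Matrix.submatrix_apply, Fin.zero_succAbove, id_eq, Function.comp]
    rw [Matrix.updateCol_ne (Fin.succAbove_ne i b)]
    simp [Matrix.mul_apply, hGp]
  · intro r _ hr
    simp [Matrix.updateCol_self, Pi.single_eq_of_ne hr]
  · simp

theorem AE_logHeight_ctr [AdmissibleAbsValues K] {k : ℕ} {ι : Type*} [Finite ι]
    (M : Matrix (Fin (k + 1)) ι K) (p : Fin (k + 1) → K) (hp : p ≠ 0)
    (G : Matrix (Fin k) (Fin (k + 1)) K) (hG : G.mulVec p = 0) (hM' : AEpl (G * M) ≠ 0) :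
    logHeight (AEctr M p) = logHeight (AEpl (G * M)) := by
  rcases isEmpty_or_nonempty ι with hι | hι
  · -- then `k = 0` and both index types are subsingletons
    have h1 : Subsingleton ((Fin (k + 1) → ι) × Fin (k + 1)) := by
      have : IsEmpty (Fin (k + 1) → ι) := ⟨fun I => hι.elim (I 0)⟩
      infer_instance
    have h2 : Subsingleton (Fin k → ι) := by
      constructor
      intro a b
      funext j
      exact hι.elim (a j)
    rw [logHeight_eq_zero_of_subsingleton, logHeight_eq_zero_of_subsingleton]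
  obtain ⟨j, hj⟩ : ∃ j, p j ≠ 0 := Function.ne_iff.mp hp
  set u : Fin (k + 1) → K := Pi.single j (p j)⁻¹ with hu
  have hup : u ⬝ᵥ p = 1 := by
    simp [hu, hj]
  set c : K := (Matrix.of (fun r : Fin (k + 1) => Fin.cases u (fun r' => G r') r)).det with hc
  have key := AE_ctr_det M p G hG u hup
  have hsurj : Function.Surjective
      (fun Ii : (Fin (k + 1) → ι) × Fin (k + 1) => Ii.1 ∘ Ii.2.succAbove) := by
    intro J
    obtain ⟨x⟩ := hι
    refine ⟨(Fin.cons x J, 0), ?_⟩
    funext a
    simp
  have hc0 : c ≠ 0 := by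
    obtain ⟨J, hJ⟩ : ∃ J, AEpl (G * M) J ≠ 0 := Function.ne_iff.mp hM'
    obtain ⟨⟨I, i⟩, hIi⟩ := hsurj J
    intro h0
    have := key I i
    rw [← hc, h0, zero_mul] at this
    apply hJ
    have h2 : I ∘ i.succAbove = J := hIi
    rw [h2] at this
    have h3 : ((-1 : K) ^ (i : ℕ)) ≠ 0 := pow_ne_zero _ (by simp)
    exact (mul_eq_zero.mp this.symm).resolve_left h3
  rw [← logHeight_smul_eq_logHeight (AEctr M p) hc0]
  have : c • AEctr M p = fun Ii : (Fin (k + 1) → ι) × Fin (k + 1) =>
      (-1) ^ (Ii.2 : ℕ) * AEpl (G * M) (Ii.1 ∘ Ii.2.succAbove) := by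
    funext ⟨I, i⟩
    exact key I i
  rw [this]
  exact AE_ctr_logHeight_sign_comp _ hsurj (fun Ii => (Ii.2 : ℕ)) (AEpl (G * M))

end Fermat.Agent.S17Lib
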