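import Fermat.Agent.S17.AE.Defs

/-!
# S17 height engine: local to global
-/

set_option autoImplicit false

namespace Fermat.Agent.S17Lib

open Matrix Height Height.AdmissibleAbsValues

variable {K : Type*} [Field K]

open Multiset in
/-- (L2G) local to global: local inequalities (up to the absolute values of a fixed nonzero `d`)
give a global inequality of heights with a constant `C ^ totalWeight K`. -/
theorem AE_l2g [AdmissibleAbsValues K] {ι ι' : Type*} [Finite ι] [Finite ι'] (x : ι → K)
    (y : ι' → K) (hx : x ≠ 0) (hy : y ≠ 0) (d : K) (hd : d ≠ 0) (C : ℝ) (hC : 0 ≤ C)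
    (ha : ∀ v ∈ archAbsVal (K := K), v d * ⨆ i, v (y i) ≤ C * ⨆ i, v (x i))
    (hn : ∀ v ∈ nonarchAbsVal (K := K), v d * ⨆ i, v (y i) ≤ ⨆ i, v (x i)) :
    mulHeight y ≤ C ^ totalWeight K * mulHeight x := by
  have hdy : d • y ≠ 0 := by simp [hd, hy]
  rw [← mulHeight_smul_eq_mulHeight y hd, mulHeight_eq hdy, mulHeight_eq hx, ← mul_assoc]
  simp only [Pi.smul_apply, smul_eq_mul, map_mul]
  gcongr
  · exact finprod_nonneg fun v ↦ Real.iSup_nonneg fun i => mul_nonneg (v.val.nonneg _) (v.val.nonneg _)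
  · exact mul_nonneg (pow_nonneg hC _)
      (prod_map_nonneg fun v _ ↦ Real.iSup_nonneg_of_nonnegHomClass v _)
  · rw [← prod_replicate, totalWeight, ← map_const', ← prod_map_mul]
    refine prod_map_le_prod_map₀ _ _
      (fun v _ ↦ Real.iSup_nonneg fun i => mul_nonneg (v.nonneg _) (v.nonneg _)) fun v hv ↦ ?_
    rw [← Real.mul_iSup_of_nonneg (v.nonneg _)]
    exact ha v hv
  · have h1 : (fun v : nonarchAbsVal (K := K) ↦ ⨆ i, v.val d * v.val (y i)) =
        fun v : nonarchAbsVal (K := K) ↦ ⨆ i, v.val ((d • y) i) := by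
      funext v; simp
    refine finprod_le_finprod ?_
      (fun v ↦ Real.iSup_nonneg fun i => mul_nonneg (v.val.nonneg _) (v.val.nonneg _))
      (by fun_prop (disch := assumption)) fun v ↦ ?_
    · rw [h1]; fun_prop (disch := assumption)
    · rw [← Real.mul_iSup_of_nonneg (v.val.nonneg _)]
      exact hn v.val v.prop

end Fermat.Agent.S17Lib
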