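import Fermat.Agent.S17.AE.Basic

/-!
# S17 height engine: the local estimates in echelon form
-/

set_option autoImplicit false

namespace Fermat.Agent.S17Lib

open Matrix

variable {K : Type*} [Field K]

theorem AE_sup_smul (v : AbsoluteValue K ℝ) {α : Type*} (c : K) (f : α → K) :
    ⨆ i, v ((c • f) i) = v c * ⨆ i, v (f i) := by
  simp [Real.mul_iSup_of_nonneg (v.nonneg c)]

theorem AE_le_sup (v : AbsoluteValue K ℝ) {α : Type*} [Finite α] (f : α → K) (i : α) :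
    v (f i) ≤ ⨆ i, v (f i) := Finite.le_ciSup_of_le i le_rfl

theorem AE_sup_nonneg (v : AbsoluteValue K ℝ) {α : Type*} (f : α → K) :
    0 ≤ ⨆ i, v (f i) := Real.iSup_nonneg fun i => v.nonneg _

theorem AE_sup_mul_sup_le (v : AbsoluteValue K ℝ) {α β : Type*} (f : α → K) (g : β → K) (R : ℝ)
    (hR : 0 ≤ R) (h : ∀ i j, v (f i) * v (g j) ≤ R) :
    (⨆ i, v (f i)) * (⨆ j, v (g j)) ≤ R := by
  rw [Real.iSup_mul_of_nonneg (AE_sup_nonneg v g)]
  refine Real.iSup_le (fun i => ?_) hR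
  rw [Real.mul_iSup_of_nonneg (v.nonneg _)]
  exact Real.iSup_le (fun j => h i j) hR

/-- echelon matrices: the contraction is comparable with the sup of the values. -/
theorem AE_sup_le_ctr (v : AbsoluteValue K ℝ) {k : ℕ} {ι : Type*} [Finite ι]
    (N : Matrix (Fin k) ι K) (I₀ : Fin k → ι) (h : N.submatrix id I₀ = 1) (q : Fin k → K) :
    ⨆ i, v (q i) ≤ ⨆ a, v (AEctr N q a) := by
  refine Real.iSup_le (fun i => ?_) (AE_sup_nonneg v _)
  rw [AE_val_eq_ctr N I₀ h q i]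
  exact AE_le_sup v (AEctr N q) (I₀, i)

theorem AE_ctr_le_sup {v : AbsoluteValue K ℝ} {θ : ℕ} (hθ : AEtype v θ) {k : ℕ} {ι : Type*}
    (N : Matrix (Fin k) ι K) (hN : ∀ i x, v (N i x) ≤ 1) (q : Fin k → K) :
    ⨆ a, v (AEctr N q a) ≤ ((k.factorial : ℕ) : ℝ) ^ θ * ⨆ i, v (q i) := by
  refine Real.iSup_le (fun a => ?_) (mul_nonneg (by positivity) (AE_sup_nonneg v _))
  have := AE_det_updateCol_le hθ (N.submatrix id a.1) a.2 q (⨆ i, v (q i)) 1 (AE_sup_nonneg v _)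
    le_rfl (fun i j => hN _ _) (fun i => AE_le_sup v q i)
  simpa [AEctr] using this

theorem AE_sup_pl_eq_one (v : AbsoluteValue K ℝ) {k : ℕ} {ι : Type*} [Finite ι]
    (N : Matrix (Fin k) ι K) (I₀ : Fin k → ι) (h : N.submatrix id I₀ = 1)
    (hpl : ∀ I, v (AEpl N I) ≤ 1) : ⨆ I, v (AEpl N I) = 1 := by
  refine le_antisymm (Real.iSup_le hpl zero_le_one) ?_
  have : v (AEpl N I₀) = 1 := by simp [AEpl, h]
  rw [← this]
  exact AE_le_sup v (AEpl N) I₀

section prod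

variable {k₁ k₂ c : ℕ} {ι₁ ι₂ ι₃ : Type*} [Fintype ι₁] [Fintype ι₂]

theorem AE_prod_entry_le {v : AbsoluteValue K ℝ} {θ : ℕ} (hθ : AEtype v θ)
    (μ : ι₁ → ι₂ → ι₃ → K) (Cμ : ℝ) (hCμ : 0 ≤ Cμ) (hμ : ∀ x y l, v (μ x y l) ≤ Cμ)
    (a : Matrix (Fin k₁) ι₁ K) (b : Matrix (Fin k₂) ι₂ K)
    (ha : ∀ i x, v (a i x) ≤ 1) (hb : ∀ j y, v (b j y) ≤ 1) (ij : Fin k₁ × Fin k₂) (l : ι₃) :
    v (AEprod μ a b ij l) ≤ ((Fintype.card ι₁ * Fintype.card ι₂ : ℕ) : ℝ) ^ θ * Cμ := by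
  have h2 : ∀ x, v (∑ y, a ij.1 x * b ij.2 y * μ x y l) ≤ (Fintype.card ι₂ : ℝ) ^ θ * Cμ := by
    intro x
    refine AE_sum_le hθ Finset.univ _ Cμ hCμ fun y _ => ?_
    rw [map_mul, map_mul]
    calc v (a ij.1 x) * v (b ij.2 y) * v (μ x y l) ≤ 1 * 1 * Cμ := by
          gcongr
          · exact ha _ _
          · exact hb _ _
          · exact hμ _ _ _
      _ = Cμ := by ring
  have h1 := AE_sum_le hθ Finset.univ (fun x => ∑ y, a ij.1 x * b ij.2 y * μ x y l)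
    ((Fintype.card ι₂ : ℝ) ^ θ * Cμ) (by positivity) (fun x _ => h2 x)
  simp only [AEprod]
  refine h1.trans (le_of_eq ?_)
  simp only [Finset.card_univ]
  push_cast
  ring

/-- coordinates w.r.t. an echelon basis are read off at the pivots. -/
theorem AE_t_eq (P : Matrix (Fin k₁ × Fin k₂) ι₃ K) (cM : Matrix (Fin c) ι₃ K)
    (L₀ : Fin c → ι₃) (hc : cM.submatrix id L₀ = 1) (t : Matrix (Fin k₁ × Fin k₂) (Fin c) K)
    (ht : P = t * cM) (ij : Fin k₁ × Fin k₂) (r : Fin c) : t ij r = P ij (L₀ r) := by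
  have h1 : ∀ s, cM s (L₀ r) = (1 : Matrix (Fin c) (Fin c) K) s r := by
    intro s; rw [← hc]; rfl
  rw [ht, Matrix.mul_apply]
  simp [h1, Matrix.one_apply]

theorem AE_local_ge_ech {v : AbsoluteValue K ℝ} {θ : ℕ} (hθ : AEtype v θ)
    (t : Matrix (Fin k₁ × Fin k₂) (Fin c) K) (Cτ : ℝ) (hCτ : 0 ≤ Cτ) (ht : ∀ ij r, v (t ij r) ≤ Cτ)
    (pa : Fin k₁ → K) (pb : Fin k₂ → K) (pc : Fin c → K)
    (hp : t.mulVec pc = fun ij => pa ij.1 * pb ij.2) :
    (⨆ i, v (pa i)) * (⨆ j, v (pb j)) ≤ (c : ℝ) ^ θ * (Cτ * ⨆ r, v (pc r)) := by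
  have hn := AE_sup_nonneg v pc
  refine AE_sup_mul_sup_le v pa pb _ (by positivity) fun i j => ?_
  have h1 : pa i * pb j = ∑ r, t (i, j) r * pc r := by
    have := congrFun hp (i, j)
    simpa [Matrix.mulVec, dotProduct] using this.symm
  rw [← map_mul, h1]
  have := AE_sum_le hθ Finset.univ (fun r => t (i, j) r * pc r) (Cτ * ⨆ r, v (pc r))
    (by positivity) fun r _ => by
      rw [map_mul]
      gcongr
      · exact ht _ _
      · exact AE_le_sup v pc r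
  simpa using this

theorem AE_cramer_mulVec {n : ℕ} (A : Matrix (Fin n) (Fin n) K) (x : Fin n → K) :
    Matrix.cramer A (A.mulVec x) = A.det • x := by
  rw [Matrix.cramer_eq_adjugate_mulVec, Matrix.mulVec_mulVec, Matrix.adjugate_mul,
    Matrix.smul_mulVec, Matrix.one_mulVec]

theorem AE_local_le_ech {v : AbsoluteValue K ℝ} {θ : ℕ} (hθ : AEtype v θ)
    (t : Matrix (Fin k₁ × Fin k₂) (Fin c) K) (Cτ : ℝ) (hCτ : 1 ≤ Cτ) (ht : ∀ ij r, v (t ij r) ≤ Cτ)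
    (pa : Fin k₁ → K) (pb : Fin k₂ → K) (pc : Fin c → K)
    (hp : t.mulVec pc = fun ij => pa ij.1 * pb ij.2) (T : Fin c → Fin k₁ × Fin k₂) :
    v ((t.submatrix T id).det) * (⨆ r, v (pc r)) ≤
      ((c.factorial : ℕ) : ℝ) ^ θ * ((⨆ i, v (pa i)) * (⨆ j, v (pb j)) * Cτ ^ c) := by
  have hna := AE_sup_nonneg v pa
  have hnb := AE_sup_nonneg v pb
  have hC0 : 0 ≤ Cτ := le_trans zero_le_one hCτ
  rw [Real.mul_iSup_of_nonneg (v.nonneg _)]
  refine Real.iSup_le (fun r => ?_) (by positivity)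
  have h1 : (t.submatrix T id).mulVec pc = fun s => pa (T s).1 * pb (T s).2 := by
    funext s
    have := congrFun hp (T s)
    simpa [Matrix.mulVec, dotProduct] using this
  have h2 : (t.submatrix T id).det * pc r
      = ((t.submatrix T id).updateCol r (fun s => pa (T s).1 * pb (T s).2)).det := by
    rw [← Matrix.cramer_apply, ← h1, AE_cramer_mulVec]
    rfl
  rw [← map_mul, h2]
  refine AE_det_updateCol_le hθ _ r _ _ Cτ (by positivity) hCτ (fun i j => ht _ _) fun s => ?_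
  rw [map_mul]
  gcongr
  · exact AE_le_sup v pa _
  · exact AE_le_sup v pb _

end prod

end Fermat.Agent.S17Lib
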