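import Fermat.Agent.S17.AE.Local
import Fermat.Agent.S17.AE.L2G

/-!
# S17 height engine: the (ADD) theorem
-/

set_option autoImplicit false

namespace Fermat.Agent.S17Lib

open Matrix Height Height.AdmissibleAbsValues

variable {K : Type*} [Field K]

section local_

variable {k₁ k₂ c : ℕ} {ι₁ ι₂ ι₃ : Type*} [Fintype ι₁] [Fintype ι₂]

def AEkr (gA : Matrix (Fin k₁) (Fin k₁) K) (gB : Matrix (Fin k₂) (Fin k₂) K) :
    Matrix (Fin k₁ × Fin k₂) (Fin k₁ × Fin k₂) K :=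
  fun ij ij' => gA ij.1 ij'.1 * gB ij.2 ij'.2

theorem AE_sum4_comm {α β γ δ : Type*} [Fintype α] [Fintype β] [Fintype γ] [Fintype δ]
    (F : α → β → γ → δ → K) :
    ∑ x, ∑ y, ∑ i, ∑ j, F x y i j = ∑ i, ∑ j, ∑ x, ∑ y, F x y i j := by
  calc ∑ x, ∑ y, ∑ i, ∑ j, F x y i j
      = ∑ x, ∑ i, ∑ y, ∑ j, F x y i j := by
        refine Finset.sum_congr rfl fun x _ => Finset.sum_comm
    _ = ∑ i, ∑ x, ∑ y, ∑ j, F x y i j := Finset.sum_comm
    _ = ∑ i, ∑ x, ∑ j, ∑ y, F x y i j := by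
        refine Finset.sum_congr rfl fun i' _ => Finset.sum_congr rfl fun x _ => Finset.sum_comm
    _ = ∑ i, ∑ j, ∑ x, ∑ y, F x y i j := by
        refine Finset.sum_congr rfl fun i' _ => Finset.sum_comm

theorem AE_prod_mul (μ : ι₁ → ι₂ → ι₃ → K) (gA : Matrix (Fin k₁) (Fin k₁) K)
    (gB : Matrix (Fin k₂) (Fin k₂) K) (MA : Matrix (Fin k₁) ι₁ K) (MB : Matrix (Fin k₂) ι₂ K) :
    AEprod μ (gA * MA) (gB * MB) = AEkr gA gB * AEprod μ MA MB := by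
  ext ⟨i, j⟩ l
  have hL : ∀ x y, (∑ i', gA i i' * MA i' x) * (∑ j', gB j j' * MB j' y) * μ x y l
      = ∑ i', ∑ j', gA i i' * gB j j' * (MA i' x * MB j' y * μ x y l) := by
    intro x y
    rw [Finset.sum_mul_sum, Finset.sum_mul]
    refine Finset.sum_congr rfl fun i' _ => ?_
    rw [Finset.sum_mul]
    exact Finset.sum_congr rfl fun j' _ => by ring
  rw [Matrix.mul_apply, Fintype.sum_prod_type]
  simp only [AEprod, AEkr, Matrix.mul_apply]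
  simp_rw [hL, Finset.mul_sum]
  exact AE_sum4_comm _

theorem AE_kr_mulVec (gA : Matrix (Fin k₁) (Fin k₁) K) (gB : Matrix (Fin k₂) (Fin k₂) K)
    (pA : Fin k₁ → K) (pB : Fin k₂ → K) :
    (AEkr gA gB).mulVec (fun ij => pA ij.1 * pB ij.2)
      = fun ij => gA.mulVec pA ij.1 * gB.mulVec pB ij.2 := by
  funext ⟨i, j⟩
  simp only [AEkr, Matrix.mulVec, dotProduct, Fintype.sum_prod_type, Finset.sum_mul_sum]
  refine Finset.sum_congr rfl fun i' _ => Finset.sum_congr rfl fun j' _ => by ring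

/-- The two local inequalities. -/
theorem AE_local [Finite ι₃] [Nonempty ι₁] [Nonempty ι₂]
    {v : AbsoluteValue K ℝ} {θ : ℕ} (hθ : AEtype v θ)
    (μ : ι₁ → ι₂ → ι₃ → K) (Cμ Cq : ℝ) (hCμ : 1 ≤ Cμ) (hCq : 0 ≤ Cq)
    (hμ : ∀ x y l, v (μ x y l) ≤ Cμ)
    (MA : Matrix (Fin k₁) ι₁ K) (MB : Matrix (Fin k₂) ι₂ K) (MC : Matrix (Fin c) ι₃ K)
    (hA : AEpl MA ≠ 0) (hB : AEpl MB ≠ 0) (hC : AEpl MC ≠ 0)
    (τ : Matrix (Fin k₁ × Fin k₂) (Fin c) K) (hτ : AEprod μ MA MB = τ * MC)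
    (pA : Fin k₁ → K) (pB : Fin k₂ → K) (pC : Fin c → K)
    (hp : τ.mulVec pC = fun ij => pA ij.1 * pB ij.2)
    (d : K)
    (hc : ∀ (gA : Matrix (Fin k₁) (Fin k₁) K)
      (gB : Matrix (Fin k₂) (Fin k₂) K) (I₀ : Fin k₁ → ι₁) (J₀ : Fin k₂ → ι₂),
      (gA * MA).submatrix id I₀ = 1 → (gB * MB).submatrix id J₀ = 1 →
      (∀ i x, v ((gA * MA) i x) ≤ 1) → (∀ j y, v ((gB * MB) j y) ≤ 1) →
      ∃ (T : Fin c → Fin k₁ × Fin k₂) (L : Fin c → ι₃),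
        v d ≤ Cq * v ((AEprod μ (gA * MA) (gB * MB)).submatrix T L).det) :
    ((⨆ a, v (AEctr MA pA a)) * (⨆ a, v (AEctr MB pB a)) * (⨆ I, v (AEpl MC I)) ≤
      (((k₁.factorial * k₂.factorial * c : ℕ) : ℝ) ^ θ
          * (((Fintype.card ι₁ * Fintype.card ι₂ : ℕ) : ℝ) ^ θ * Cμ)) *
        ((⨆ I, v (AEpl MA I)) * (⨆ I, v (AEpl MB I)) * (⨆ a, v (AEctr MC pC a)))) ∧
    (v d * ((⨆ I, v (AEpl MA I)) * (⨆ I, v (AEpl MB I)) * (⨆ a, v (AEctr MC pC a))) ≤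
      (Cq * ((c.factorial * c.factorial : ℕ) : ℝ) ^ θ
          * (((Fintype.card ι₁ * Fintype.card ι₂ : ℕ) : ℝ) ^ θ * Cμ) ^ c) *
        ((⨆ a, v (AEctr MA pA a)) * (⨆ a, v (AEctr MB pB a)) * (⨆ I, v (AEpl MC I)))) := by
  classical
  obtain ⟨gA, I₀, hgA, heA, hentA, hplA⟩ := AE_exists_echelon v MA hA
  obtain ⟨gB, J₀, hgB, heB, hentB, hplB⟩ := AE_exists_echelon v MB hB
  obtain ⟨gC, L₀, hgC, heC, hentC, hplC⟩ := AE_exists_echelon v MC hC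
  set Cτ : ℝ := ((Fintype.card ι₁ * Fintype.card ι₂ : ℕ) : ℝ) ^ θ * Cμ with hCτdef
  have hCμ0 : 0 ≤ Cμ := le_trans zero_le_one hCμ
  have hcard : (1 : ℝ) ≤ ((Fintype.card ι₁ * Fintype.card ι₂ : ℕ) : ℝ) ^ θ := by
    have : (1 : ℝ) ≤ ((Fintype.card ι₁ * Fintype.card ι₂ : ℕ) : ℝ) := by
      exact_mod_cast Nat.mul_pos (Fintype.card_pos (α := ι₁)) (Fintype.card_pos (α := ι₂))
    exact one_le_pow₀ this
  have hCτ1 : 1 ≤ Cτ := by
    rw [hCτdef]; nlinarith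
  have hCτ0 : 0 ≤ Cτ := le_trans zero_le_one hCτ1
  have hgCu : IsUnit gC.det := isUnit_iff_ne_zero.mpr hgC
  set t : Matrix (Fin k₁ × Fin k₂) (Fin c) K := AEkr gA gB * τ * gC⁻¹ with htdef
  have ht : AEprod μ (gA * MA) (gB * MB) = t * (gC * MC) := by
    rw [AE_prod_mul, hτ, htdef, Matrix.mul_assoc (AEkr gA gB * τ), ← Matrix.mul_assoc gC⁻¹,
      Matrix.nonsing_inv_mul _ hgCu, Matrix.one_mul, Matrix.mul_assoc]
  have hpt : t.mulVec (gC.mulVec pC) = fun ij => gA.mulVec pA ij.1 * gB.mulVec pB ij.2 := by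
    rw [Matrix.mulVec_mulVec, htdef, Matrix.mul_assoc (AEkr gA gB * τ),
      Matrix.nonsing_inv_mul _ hgCu, Matrix.mul_one, ← Matrix.mulVec_mulVec, hp, AE_kr_mulVec]
  have htent : ∀ ij r, v (t ij r) ≤ Cτ := by
    intro ij r
    rw [AE_t_eq _ _ L₀ heC t ht ij r]
    exact AE_prod_entry_le hθ μ Cμ hCμ0 hμ _ _ hentA hentB ij _
  -- abbreviations
  set nA := ⨆ i, v (gA.mulVec pA i) with hnA
  set nB := ⨆ i, v (gB.mulVec pB i) with hnB
  set nC := ⨆ i, v (gC.mulVec pC i) with hnC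
  have hnA0 : 0 ≤ nA := AE_sup_nonneg v _
  have hnB0 : 0 ≤ nB := AE_sup_nonneg v _
  have hnC0 : 0 ≤ nC := AE_sup_nonneg v _
  set XA := ⨆ a, v (AEctr MA pA a) with hXA
  set XB := ⨆ a, v (AEctr MB pB a) with hXB
  set XC := ⨆ a, v (AEctr MC pC a) with hXC
  set YA := ⨆ I, v (AEpl MA I) with hYA
  set YB := ⨆ I, v (AEpl MB I) with hYB
  set YC := ⨆ I, v (AEpl MC I) with hYC
  have dA : 0 < v gA.det := v.pos hgA
  have dB : 0 < v gB.det := v.pos hgB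
  have dC : 0 < v gC.det := v.pos hgC
  have yA : v gA.det * YA = 1 := by
    rw [hYA, ← AE_sup_smul, ← AE_pl_mul]; exact AE_sup_pl_eq_one v _ I₀ heA hplA
  have yB : v gB.det * YB = 1 := by
    rw [hYB, ← AE_sup_smul, ← AE_pl_mul]; exact AE_sup_pl_eq_one v _ J₀ heB hplB
  have yC : v gC.det * YC = 1 := by
    rw [hYC, ← AE_sup_smul, ← AE_pl_mul]; exact AE_sup_pl_eq_one v _ L₀ heC hplC
  have xA1 : nA ≤ v gA.det * XA := by
    rw [hXA, ← AE_sup_smul, ← AE_ctr_mul]; exact AE_sup_le_ctr v _ I₀ heA _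
  have xB1 : nB ≤ v gB.det * XB := by
    rw [hXB, ← AE_sup_smul, ← AE_ctr_mul]; exact AE_sup_le_ctr v _ J₀ heB _
  have xC1 : nC ≤ v gC.det * XC := by
    rw [hXC, ← AE_sup_smul, ← AE_ctr_mul]; exact AE_sup_le_ctr v _ L₀ heC _
  have xA2 : v gA.det * XA ≤ ((k₁.factorial : ℕ) : ℝ) ^ θ * nA := by
    rw [hXA, ← AE_sup_smul, ← AE_ctr_mul]; exact AE_ctr_le_sup hθ _ hentA _
  have xB2 : v gB.det * XB ≤ ((k₂.factorial : ℕ) : ℝ) ^ θ * nB := by
    rw [hXB, ← AE_sup_smul, ← AE_ctr_mul]; exact AE_ctr_le_sup hθ _ hentB _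
  have xC2 : v gC.det * XC ≤ ((c.factorial : ℕ) : ℝ) ^ θ * nC := by
    rw [hXC, ← AE_sup_smul, ← AE_ctr_mul]; exact AE_ctr_le_sup hθ _ hentC _
  have hge := AE_local_ge_ech hθ t Cτ hCτ0 htent _ _ _ hpt
  set D := v gA.det * v gB.det * v gC.det with hD
  have hDpos : 0 < D := by positivity
  have hXA0 : 0 ≤ XA := AE_sup_nonneg v _
  have hXB0 : 0 ≤ XB := AE_sup_nonneg v _
  have hXC0 : 0 ≤ XC := AE_sup_nonneg v _
  constructor
  · refine le_of_mul_le_mul_left ?_ hDpos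
    have e1 : D * (XA * XB * YC) = (v gA.det * XA) * (v gB.det * XB) * (v gC.det * YC) := by
      rw [hD]; ring
    have e2 : D * ((((k₁.factorial * k₂.factorial * c : ℕ) : ℝ) ^ θ * Cτ) * (YA * YB * XC))
        = (((k₁.factorial * k₂.factorial * c : ℕ) : ℝ) ^ θ * Cτ) *
          ((v gA.det * YA) * (v gB.det * YB) * (v gC.det * XC)) := by
      rw [hD]; ring
    rw [e1, e2, yA, yB, yC]
    calc v gA.det * XA * (v gB.det * XB) * 1
        ≤ (((k₁.factorial : ℕ) : ℝ) ^ θ * nA) * (((k₂.factorial : ℕ) : ℝ) ^ θ * nB) * 1 := by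
          gcongr
      _ = ((k₁.factorial : ℕ) : ℝ) ^ θ * ((k₂.factorial : ℕ) : ℝ) ^ θ * (nA * nB) := by ring
      _ ≤ ((k₁.factorial : ℕ) : ℝ) ^ θ * ((k₂.factorial : ℕ) : ℝ) ^ θ
            * ((c : ℝ) ^ θ * (Cτ * nC)) := by gcongr
      _ ≤ ((k₁.factorial : ℕ) : ℝ) ^ θ * ((k₂.factorial : ℕ) : ℝ) ^ θ
            * ((c : ℝ) ^ θ * (Cτ * (v gC.det * XC))) := by gcongr
      _ = _ := by push_cast; ring
  · obtain ⟨T, L, hTL⟩ := hc gA gB I₀ J₀ heA heB hentA hentB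
    have hdet : ((AEprod μ (gA * MA) (gB * MB)).submatrix T L).det
        = (t.submatrix T id).det * AEpl (gC * MC) L := by
      rw [ht, AEpl, ← Matrix.det_mul]
      congr 1
    have hTL' : v d ≤ Cq * v (t.submatrix T id).det := by
      refine hTL.trans ?_
      rw [hdet, map_mul]
      have := hplC L
      have h0 := v.nonneg (t.submatrix T id).det
      gcongr
      nlinarith
    have hle := AE_local_le_ech hθ t Cτ hCτ1 htent _ _ _ hpt T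
    refine le_of_mul_le_mul_left ?_ hDpos
    have e1 : D * (v d * (YA * YB * XC))
        = v d * ((v gA.det * YA) * (v gB.det * YB) * (v gC.det * XC)) := by
      rw [hD]; ring
    have e2 : D * ((Cq * ((c.factorial * c.factorial : ℕ) : ℝ) ^ θ * Cτ ^ c) * (XA * XB * YC))
        = (Cq * ((c.factorial * c.factorial : ℕ) : ℝ) ^ θ * Cτ ^ c) *
          ((v gA.det * XA) * (v gB.det * XB) * (v gC.det * YC)) := by
      rw [hD]; ring
    rw [e1, e2, yA, yB, yC]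
    have hvd0 := v.nonneg d
    calc v d * (1 * 1 * (v gC.det * XC))
        ≤ v d * (1 * 1 * (((c.factorial : ℕ) : ℝ) ^ θ * nC)) := by gcongr
      _ = ((c.factorial : ℕ) : ℝ) ^ θ * (v d * nC) := by ring
      _ ≤ ((c.factorial : ℕ) : ℝ) ^ θ * ((Cq * v (t.submatrix T id).det) * nC) := by gcongr
      _ = ((c.factorial : ℕ) : ℝ) ^ θ * Cq * (v (t.submatrix T id).det * nC) := by ring
      _ ≤ ((c.factorial : ℕ) : ℝ) ^ θ * Cq
            * (((c.factorial : ℕ) : ℝ) ^ θ * (nA * nB * Cτ ^ c)) := by gcongr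
      _ ≤ ((c.factorial : ℕ) : ℝ) ^ θ * Cq
            * (((c.factorial : ℕ) : ℝ) ^ θ * ((v gA.det * XA) * (v gB.det * XB) * Cτ ^ c)) := by
          gcongr
      _ = _ := by push_cast; ring

end local_

end Fermat.Agent.S17Lib
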