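import Fermat.Agent.S17.AE.NFDefs

/-!
# S17 height engine over number fields inside `ℚ̄`: basic lemmas
-/

set_option autoImplicit false

namespace Fermat.Agent.S17Lib

open Matrix Height

section general

variable {K L : Type*} [Field K] [Field L]

theorem AE_pl_map (φ : K →+* L) {k : ℕ} {ι : Type*} (M : Matrix (Fin k) ι K) (I : Fin k → ι) :
    AEpl (M.map φ) I = φ (AEpl M I) := by
  simp only [AEpl]
  rw [RingHom.map_det]
  rfl

theorem AE_pl_map_ne_zero (φ : K →+* L) {k : ℕ} {ι : Type*} (M : Matrix (Fin k) ι K)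
    (h : AEpl M ≠ 0) : AEpl (M.map φ) ≠ 0 := by
  obtain ⟨I, hI⟩ := Function.ne_iff.mp h
  refine Function.ne_iff.mpr ⟨I, ?_⟩
  rw [AE_pl_map]
  simpa using hI

theorem AE_li_of_pl_ne_zero {k : ℕ} {ι : Type*} (a : Matrix (Fin k) ι K) (h : AEpl a ≠ 0) :
    LinearIndependent K a.row := by
  obtain ⟨I, hI⟩ := Function.ne_iff.mp h
  have h1 : LinearIndependent K (a.submatrix id I).row :=
    Matrix.linearIndependent_rows_of_det_ne_zero hI
  have h2 : (a.submatrix id I).row = (LinearMap.funLeft K K I) ∘ a.row := by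
    ext r c; rfl
  rw [h2] at h1
  exact LinearIndependent.of_comp _ h1

/-- descent of coefficients (any row type). -/
theorem AE_exists_mul' (φ : K →+* L) {k : ℕ} {n' ι : Type*} (M : Matrix (Fin k) ι K)
    (hM : AEpl M ≠ 0) (M' : Matrix n' ι K)
    (h : ∀ r, (M'.map φ).row r ∈ Submodule.span L (Set.range (M.map φ).row)) :
    ∃ G : Matrix n' (Fin k) K, M' = G * M := by
  classical
  obtain ⟨I, hI⟩ := Function.ne_iff.mp hM
  have hdet : (M.submatrix id I).det ≠ 0 := hI
  have hu : IsUnit (M.submatrix id I).det := isUnit_iff_ne_zero.mpr hdet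
  refine ⟨M'.submatrix id I * (M.submatrix id I)⁻¹, ?_⟩
  -- coefficients over `L`
  have hex : ∀ r, ∃ t : Fin k → L, ∀ x, φ (M' r x) = ∑ i, t i * φ (M i x) := by
    intro r
    obtain ⟨t, ht⟩ := (Submodule.mem_span_range_iff_exists_fun L).mp (h r)
    refine ⟨t, fun x => ?_⟩
    have := congrFun ht x
    simpa [Finset.sum_apply, Matrix.row] using this.symm
  choose t ht using hex
  let G' : Matrix n' (Fin k) L := Matrix.of t
  have h1 : M'.map φ = G' * M.map φ := by
    ext r x
    simp [Matrix.mul_apply, G', ht r x]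
  have h2 : (M'.submatrix id I).map φ = G' * (M.submatrix id I).map φ := by
    ext r x
    have := congrFun (congrFun h1 r) (I x)
    simpa [Matrix.mul_apply] using this
  have hu' : IsUnit ((M.submatrix id I).map φ).det := by
    rw [← RingHom.mapMatrix_apply, ← RingHom.map_det]
    exact isUnit_iff_ne_zero.mpr (by simpa using hdet)
  have h3 : G' = (M'.submatrix id I * (M.submatrix id I)⁻¹).map φ := by
    have e1 : ((M.submatrix id I)⁻¹).map φ = ((M.submatrix id I).map φ)⁻¹ := by
      symm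
      apply Matrix.inv_eq_left_inv
      rw [← Matrix.map_mul, Matrix.nonsing_inv_mul _ hu]
      simp
    rw [Matrix.map_mul, h2, e1, Matrix.mul_assoc, Matrix.mul_nonsing_inv _ hu', Matrix.mul_one]
  have h4 : M'.map φ = ((M'.submatrix id I * (M.submatrix id I)⁻¹) * M).map φ := by
    rw [Matrix.map_mul, ← h3, h1]
  exact Matrix.map_injective φ.injective h4

end general

variable {K : Type} [Field K]

theorem AE_exists_mul (φ : K →+* AEQb) {k k' d : ℕ} (M : Matrix (Fin k) (Fin d) K)
    (hM : AEpl M ≠ 0) (M' : Matrix (Fin k') (Fin d) K)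
    (h : ∀ r, (M'.map φ).row r ∈ Submodule.span AEQb (Set.range (M.map φ).row)) :
    ∃ G : Matrix (Fin k') (Fin k) K, M' = G * M :=
  AE_exists_mul' φ M hM M' h

theorem AE_finrank_of_isBasis (φ : K →+* AEQb) {k d : ℕ} {M : Matrix (Fin k) (Fin d) K}
    {W : Submodule AEQb (Fin d → AEQb)} (h : AEIsBasis φ M W) : Module.finrank AEQb W = k := by
  rw [← h.2, finrank_span_eq_card (AE_li_of_pl_ne_zero _ (AE_pl_map_ne_zero φ M h.1))]
  simp

theorem AE_row_mem (φ : K →+* AEQb) {k d : ℕ} {M : Matrix (Fin k) (Fin d) K}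
    {W : Submodule AEQb (Fin d → AEQb)} (h : AEIsBasis φ M W) (i : Fin k) :
    (M.map φ).row i ∈ W := by
  rw [← h.2]; exact Submodule.subset_span ⟨i, rfl⟩

theorem AE_logHeight_basis_indep [NumberField K] (φ : K →+* AEQb) {k k' d : ℕ}
    (M : Matrix (Fin k) (Fin d) K) (M' : Matrix (Fin k') (Fin d) K)
    (W : Submodule AEQb (Fin d → AEQb)) (h : AEIsBasis φ M W) (hb : AEIsBasis φ M' W) :
    logHeight (AEpl M') = logHeight (AEpl M) := by
  have e1 := AE_finrank_of_isBasis φ h
  have e2 := AE_finrank_of_isBasis φ hb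
  have e : k' = k := by omega
  subst e
  obtain ⟨g, hg⟩ := AE_exists_mul φ M h.1 M' (fun r => by rw [h.2]; exact AE_row_mem φ hb r)
  have hgdet : g.det ≠ 0 := by
    intro h0
    apply hb.1
    rw [hg, AE_pl_mul, h0, zero_smul]
  rw [hg, AE_logHeight_pl_mul _ _ hgdet]

/-- the height does not depend on the basis. -/
theorem AEhW_eq [NumberField K] (φ : K →+* AEQb) {k d : ℕ} (M : Matrix (Fin k) (Fin d) K)
    (W : Submodule AEQb (Fin d → AEQb)) (h : AEIsBasis φ M W) :
    AEhW K φ W = logHeight (AEpl M) / Module.finrank ℚ K := by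
  have hdef : AEDef φ W := ⟨k, M, h⟩
  unfold AEhW
  rw [dif_pos hdef]
  rw [AE_logHeight_basis_indep φ M _ W h hdef.choose_spec.choose_spec]

/-- rational subspaces. -/
theorem AEhW_rat [NumberField K] (φ : K →+* AEQb) {k d : ℕ} (M : Matrix (Fin k) (Fin d) ℚ)
    (hM : AEpl M ≠ 0) (W : Submodule AEQb (Fin d → AEQb))
    (h : Submodule.span AEQb (Set.range (M.map (algebraMap ℚ AEQb)).row) = W) :
    AEhW K φ W = logHeight (AEpl M) := by
  have hmap : (M.map (algebraMap ℚ K)).map φ = M.map (algebraMap ℚ AEQb) := by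
    ext i j
    simp
  have hb : AEIsBasis φ (M.map (algebraMap ℚ K)) W :=
    ⟨AE_pl_map_ne_zero _ M hM, by rw [hmap]; exact h⟩
  rw [AEhW_eq φ _ W hb]
  have h1 : AEpl (M.map (algebraMap ℚ K)) = fun I => algebraMap ℚ K (AEpl M I) := by
    funext I; exact AE_pl_map _ M I
  rw [h1, AE_logHeight_rat K (AEpl M)]
  have hpos : (0 : ℝ) < Module.finrank ℚ K := by exact_mod_cast Module.finrank_pos
  field_simp

/-- number field containing a finite set. -/
theorem AE_exists_nf (S : Set AEQb) (hS : S.Finite) :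
    ∃ (K : Type) (_ : Field K) (_ : NumberField K) (φ : K →+* AEQb),
      ∀ s ∈ S, ∃ y : K, φ y = s := by
  have hfd : FiniteDimensional ℚ (IntermediateField.adjoin ℚ S) := by
    have : Finite S := hS
    exact IntermediateField.finiteDimensional_adjoin
      (fun x _ => ((AlgebraicClosure.isAlgebraic ℚ).isAlgebraic x).isIntegral)
  refine ⟨IntermediateField.adjoin ℚ S, inferInstance,
    { to_charZero := inferInstance, to_finiteDimensional := hfd },
    algebraMap (IntermediateField.adjoin ℚ S) AEQb, fun s hs => ?_⟩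
  exact ⟨⟨s, IntermediateField.subset_adjoin ℚ S hs⟩, rfl⟩

end Fermat.Agent.S17Lib
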