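import Mathlib

/-!
# S17 height engine: the height of a rational vector over a number field

`logHeight` (over a number field `K`) of a vector with rational entries is `[K : ℚ]` times its
`logHeight` over `ℚ`.  Pure Mathlib.
-/

set_option autoImplicit false

namespace Fermat.Agent.S17Lib

open Height NumberField

section

variable {K : Type*} [Field K] [NumberField K] {ι : Type*} [Fintype ι] [Nonempty ι]

/-- finite places: a primitive integer vector has sup norm `1`. -/
theorem AE_iSup_finitePlace_eq_one {x : ι → ℤ} (v : FinitePlace K)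
    (hx : Finset.univ.gcd x = 1) : ⨆ i, v ((x i : ℤ) : K) = 1 := by
  have hv : IsNonarchimedean (v ·) := FinitePlace.add_le v
  have H (n : ℤ) : v (n : K) ≤ 1 := IsNonarchimedean.apply_intCast_le_one hv
  obtain ⟨f, hf⟩ := Finset.gcd_eq_sum_mul .univ x
  have hf' : (1 : K) = ∑ i, ((x i : ℤ) : K) * ((f i : ℤ) : K) := by
    rw [hx] at hf
    have := congrArg (Int.cast : ℤ → K) hf
    simpa using this
  have h1 : (1 : ℝ) ≤ ⨆ i, v (((x i : ℤ) : K) * ((f i : ℤ) : K)) := by
    have := hv.apply_sum_univ_le (l := fun i => ((x i : ℤ) : K) * ((f i : ℤ) : K))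
    rw [← hf', map_one] at this
    exact this
  obtain ⟨i, hi⟩ := exists_eq_ciSup_of_finite (f := fun i ↦ v (((x i : ℤ) : K) * ((f i : ℤ) : K)))
  rw [← hi, map_mul] at h1
  have h2 : 1 ≤ v ((x i : ℤ) : K) := h1.trans <| mul_le_of_le_one_right (apply_nonneg v _) (H _)
  exact le_antisymm (ciSup_le (H <| x ·)) <| Finite.le_ciSup_of_le i h2

/-- infinite places restrict to the usual absolute value on integers. -/
theorem AE_infinitePlace_intCast (v : InfinitePlace K) (n : ℤ) : v (n : K) = |(n : ℝ)| := by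
  rw [← InfinitePlace.norm_embedding_eq, map_intCast, Complex.norm_intCast]

theorem AE_mulHeight_intCast {x : ι → ℤ} (hx : Finset.univ.gcd x = 1) :
    mulHeight (fun i => ((x i : ℤ) : K)) = ((⨆ i, |x i| : ℤ) : ℝ) ^ Module.finrank ℚ K := by
  have hx₀ : (fun i => ((x i : ℤ) : K)) ≠ 0 := by
    intro h
    have h0 : x = 0 := by
      funext i
      have := congrFun h i
      simpa using this
    rw [h0, Finset.gcd_eq_zero_iff.mpr (by simp)] at hx
    exact zero_ne_one hx
  rw [NumberField.mulHeight_eq hx₀,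
    finprod_eq_one_of_forall_eq_one (fun v => AE_iSup_finitePlace_eq_one v hx), mul_one]
  simp_rw [AE_infinitePlace_intCast]
  rw [Finset.prod_pow_eq_pow_sum, InfinitePlace.sum_mult_eq]
  congr 1
  rw [Finite.map_iSup_of_monotone _ Int.cast_mono]
  simp

end

/-- a nonzero rational vector is a nonzero multiple of a primitive integer vector. -/
theorem AE_exists_primitive {ι : Type*} [Fintype ι] (x : ι → ℚ) (hx : x ≠ 0) :
    ∃ (c : ℚ) (y : ι → ℤ), c ≠ 0 ∧ Finset.univ.gcd y = 1 ∧ ∀ i, x i = c * (y i : ℚ) := by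
  classical
  obtain ⟨b, hb⟩ := IsLocalization.exist_integer_multiples_of_finite (nonZeroDivisors ℤ) x
  choose z hz using hb
  have hb0 : ((b : ℤ) : ℚ) ≠ 0 := by
    have := nonZeroDivisors.ne_zero b.2
    exact_mod_cast this
  obtain ⟨i0, hi0⟩ := Function.ne_iff.mp hx
  have hne : (Finset.univ : Finset ι).Nonempty := ⟨i0, Finset.mem_univ _⟩
  obtain ⟨y, hy, hg⟩ := Finset.extract_gcd z hne
  have hz' : ∀ i, (z i : ℚ) = (b : ℤ) * x i := by
    intro i
    have := hz i
    simpa [Algebra.smul_def] using this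
  have hg0 : (Finset.univ.gcd z : ℤ) ≠ 0 := by
    intro h
    have h1 := (Finset.gcd_eq_zero_iff.mp h) i0 (Finset.mem_univ _)
    have h2 := hz' i0
    rw [h1] at h2
    have h3 : x i0 = 0 := by
      have : ((b : ℤ) : ℚ) * x i0 = 0 := by simpa using h2.symm
      exact (mul_eq_zero.mp this).resolve_left hb0
    exact hi0 h3
  refine ⟨(Finset.univ.gcd z : ℤ) / ((b : ℤ) : ℚ), y, div_ne_zero (by exact_mod_cast hg0) hb0, hg,
    fun i => ?_⟩
  have h1 := hy i (Finset.mem_univ _)
  have h2 := hz' i
  rw [h1] at h2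
  push_cast at h2
  field_simp
  linarith [h2]

/-- **Base change of heights for rational vectors.** -/
theorem AE_logHeight_rat (K : Type*) [Field K] [NumberField K] {ι : Type*} [Fintype ι]
    (x : ι → ℚ) :
    logHeight (fun i => algebraMap ℚ K (x i)) = Module.finrank ℚ K * logHeight x := by
  classical
  by_cases hx : x = 0
  · subst hx
    have : (fun i : ι => algebraMap ℚ K ((0 : ι → ℚ) i)) = 0 := by
      funext i; simp
    rw [this, logHeight_zero, logHeight_zero, mul_zero]
  obtain ⟨c, y, hc, hg, hxy⟩ := AE_exists_primitive x hx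
  obtain ⟨i0, -⟩ := Function.ne_iff.mp hx
  haveI : Nonempty ι := ⟨i0⟩
  have e1 : x = c • (((↑) : ℤ → ℚ) ∘ y) := by
    funext i; simp [hxy i]
  have e2 : (fun i => algebraMap ℚ K (x i)) = (algebraMap ℚ K c) • (fun i => ((y i : ℤ) : K)) := by
    funext i; simp [hxy i]
  have hc' : algebraMap ℚ K c ≠ 0 := by simpa using hc
  rw [e2, logHeight_smul_eq_logHeight _ hc', e1, logHeight_smul_eq_logHeight _ hc,
    Rat.logHeight_eq_max_abs_of_gcd_eq_one hg, logHeight_eq_log_mulHeight,
    AE_mulHeight_intCast hg, Real.log_pow]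

end Fermat.Agent.S17Lib
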