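import Fermat.Agent.S17.AE.Add
import Fermat.Agent.S17.AE.Ctr
import Fermat.Agent.S17.AE.Rat

/-!
# S17 height engine over number fields inside `ℚ̄`: definitions

Heights (normalised by the degree) of `ℚ̄`-subspaces of `ℚ̄^d` which are defined over a number
field `K` (given with an embedding `φ : K →+* ℚ̄`).
-/

set_option autoImplicit false

namespace Fermat.Agent.S17Lib

open Matrix Height

/-- `ℚ̄` -/
abbrev AEQb := AlgebraicClosure ℚ

/-- `M` (over `K`) is a basis matrix of the `ℚ̄`-subspace `W`. -/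
def AEIsBasis {K : Type} [Field K] (φ : K →+* AEQb) {k d : ℕ} (M : Matrix (Fin k) (Fin d) K)
    (W : Submodule AEQb (Fin d → AEQb)) : Prop :=
  AEpl M ≠ 0 ∧ Submodule.span AEQb (Set.range (M.map φ).row) = W

/-- `W` is defined over `K`. -/
def AEDef {K : Type} [Field K] (φ : K →+* AEQb) {d : ℕ} (W : Submodule AEQb (Fin d → AEQb)) :
    Prop :=
  ∃ (k : ℕ) (M : Matrix (Fin k) (Fin d) K), AEIsBasis φ M W

open Classical in
/-- the normalised Pluecker height of `W` computed in `K`. -/
noncomputable def AEhW (K : Type) [Field K] [NumberField K] (φ : K →+* AEQb) {d : ℕ}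
    (W : Submodule AEQb (Fin d → AEQb)) : ℝ :=
  if h : AEDef φ W then logHeight (AEpl h.choose_spec.choose) / Module.finrank ℚ K else 0

/-- the linear functional `ℓ` is defined over `K`. -/
def AEDefL {K : Type} [Field K] (φ : K →+* AEQb) {d : ℕ}
    (ℓ : (Fin d → AEQb) →ₗ[AEQb] AEQb) : Prop :=
  ∀ j : Fin d, ∃ y : K, φ y = ℓ (Pi.single j 1)

/-- multiplication in coordinates with rational structure constants -/
noncomputable def AEmul {d₁ d₂ d₃ : ℕ} (μ : Fin d₁ → Fin d₂ → Fin d₃ → ℚ)
    (a : Fin d₁ → AEQb) (b : Fin d₂ → AEQb) : Fin d₃ → AEQb :=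
  fun l => ∑ x, ∑ y, a x * b y * algebraMap ℚ AEQb (μ x y l)

/-- a set of polynomial equations (rational coefficients) on `k × d` matrices, evaluated at a
matrix over a `ℚ`-algebra -/
def AEZ {k d : ℕ} (Z : Set (MvPolynomial (Fin k × Fin d) ℚ)) {L : Type} [Field L] [Algebra ℚ L]
    (a : Matrix (Fin k) (Fin d) L) : Prop :=
  ∀ f ∈ Z, MvPolynomial.aeval (fun x : Fin k × Fin d => a x.1 x.2) f = 0

end Fermat.Agent.S17Lib
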