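import Fermat.Agent.S17.AE.NF
import Fermat.Agent.S17.Closed.Rank

/-!
# S17 height engine: preparations for the one-step theorem
-/

set_option autoImplicit false

namespace Fermat.Agent.S17Lib

open Matrix Height MvPolynomial

theorem AE_exists_int_scale {d₁ d₂ d₃ : ℕ} (μ : Fin d₁ → Fin d₂ → Fin d₃ → ℚ) :
    ∃ (Dμ : ℤ) (μZ : Fin d₁ → Fin d₂ → Fin d₃ → ℤ), Dμ ≠ 0 ∧
      ∀ x y l, ((μZ x y l : ℤ) : ℚ) = Dμ * μ x y l := by
  obtain ⟨b, hb⟩ := IsLocalization.exist_integer_multiples_of_finite (nonZeroDivisors ℤ)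
    (fun t : Fin d₁ × Fin d₂ × Fin d₃ => μ t.1 t.2.1 t.2.2)
  choose z hz using hb
  refine ⟨b, fun x y l => z (x, y, l), nonZeroDivisors.coe_ne_zero b, fun x y l => ?_⟩
  have := hz (x, y, l)
  simpa [Algebra.smul_def] using this

theorem AE_abv_int_le {L : Type*} [Field L] (v : AbsoluteValue L ℝ) (n : ℤ) :
    v (n : L) ≤ |(n : ℝ)| := by
  have hnat : ∀ m : ℕ, v (m : L) ≤ m := by
    intro m
    induction m with
    | zero => simp
    | succ m ih =>
      push_cast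
      refine (v.add_le _ _).trans ?_
      rw [map_one]
      linarith
  obtain ⟨m, rfl | rfl⟩ := n.eq_nat_or_neg
  · simpa using hnat m
  · simpa using hnat m

/-- a linear functional defined over `K`, evaluated at a `K`-point. -/
theorem AE_functional_apply {K : Type} [Field K] (φ : K →+* AEQb) {d : ℕ}
    (ℓ : (Fin d → AEQb) →ₗ[AEQb] AEQb) (l : Fin d → K) (hl : ∀ j, φ (l j) = ℓ (Pi.single j 1))
    {n : Type*} (M : Matrix n (Fin d) K) (r : n) :
    ℓ ((M.map φ) r) = φ (M.mulVec l r) := by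
  rw [LinearMap.pi_apply_eq_sum_univ ℓ]
  simp only [Matrix.mulVec, dotProduct, map_sum, map_mul, hl]
  refine Finset.sum_congr rfl fun j _ => ?_
  have : (fun j' => if j = j' then (1 : AEQb) else 0) = Pi.single j 1 := by
    ext j'; simp [Pi.single_apply, eq_comm]
  rw [this]
  rfl

section scale

variable {d₁ d₂ d₃ : ℕ} (μ : Fin d₁ → Fin d₂ → Fin d₃ → ℚ) (Dμ : ℤ)
  (μZ : Fin d₁ → Fin d₂ → Fin d₃ → ℤ) (hμ : ∀ x y l, ((μZ x y l : ℤ) : ℚ) = Dμ * μ x y l)

include hμ in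
theorem AE_prod_eq_smul_mul {k₁ k₂ : ℕ} (a : Matrix (Fin k₁) (Fin d₁) AEQb)
    (b : Matrix (Fin k₂) (Fin d₂) AEQb) (ij : Fin k₁ × Fin k₂) :
    AEprod (fun x y l => ((μZ x y l : ℤ) : AEQb)) a b ij
      = (Dμ : AEQb) • AEmul μ (a ij.1) (b ij.2) := by
  funext l
  simp only [AEprod, AEmul, Pi.smul_apply, smul_eq_mul, Finset.mul_sum]
  refine Finset.sum_congr rfl fun x _ => Finset.sum_congr rfl fun y _ => ?_
  have h1 : ((μZ x y l : ℤ) : AEQb) = (Dμ : AEQb) * algebraMap ℚ AEQb (μ x y l) := by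
    have := congrArg (algebraMap ℚ AEQb) (hμ x y l)
    simpa using this
  rw [h1]; ring

theorem AE_prod_map {K : Type} [Field K] (φ : K →+* AEQb) {k₁ k₂ : ℕ}
    (MA : Matrix (Fin k₁) (Fin d₁) K) (MB : Matrix (Fin k₂) (Fin d₂) K) :
    (AEprod (fun x y l => ((μZ x y l : ℤ) : K)) MA MB).map φ
      = AEprod (fun x y l => ((μZ x y l : ℤ) : AEQb)) (MA.map φ) (MB.map φ) := by
  ext ij l
  simp [AEprod, map_sum, map_mul]

include hμ in
/-- non-vanishing of a minor from the rank. -/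
theorem AE_exists_minor {k₁ k₂ c : ℕ} (hD : Dμ ≠ 0) (a : Matrix (Fin k₁) (Fin d₁) AEQb)
    (b : Matrix (Fin k₂) (Fin d₂) AEQb)
    (h : (c + 1 : ℕ) ≤ Module.finrank AEQb (Submodule.span AEQb
        (Set.range fun ij : Fin k₁ × Fin k₂ => AEmul μ (a ij.1) (b ij.2)))) :
    ∃ (T : Fin (c + 1) → Fin k₁ × Fin k₂) (L : Fin (c + 1) → Fin d₃),
        ((AEprod (fun x y l => ((μZ x y l : ℤ) : AEQb)) a b).submatrix T L).det ≠ 0 := by
  by_contra hcon
  push Not at hcon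
  have h1 := (CL_finrank_le_iff
    (fun ij : Fin k₁ × Fin k₂ => AEprod (fun x y l => ((μZ x y l : ℤ) : AEQb)) a b ij) c).mpr
    (fun T J => hcon T J)
  have hD' : (Dμ : AEQb) ≠ 0 := by exact_mod_cast hD
  have h2 : Submodule.span AEQb
        (Set.range fun ij : Fin k₁ × Fin k₂ => AEmul μ (a ij.1) (b ij.2)) ≤
      Submodule.span AEQb (Set.range
        (fun ij : Fin k₁ × Fin k₂ => AEprod (fun x y l => ((μZ x y l : ℤ) : AEQb)) a b ij)) := by
    rw [Submodule.span_le]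
    rintro _ ⟨ij, rfl⟩
    have h3 : AEmul μ (a ij.1) (b ij.2)
        = (Dμ : AEQb)⁻¹ • AEprod (fun x y l => ((μZ x y l : ℤ) : AEQb)) a b ij := by
      rw [AE_prod_eq_smul_mul μ Dμ μZ hμ, smul_smul, inv_mul_cancel₀ hD', one_smul]
    show AEmul μ (a ij.1) (b ij.2) ∈ _
    rw [h3]
    exact Submodule.smul_mem _ _ (Submodule.subset_span ⟨ij, rfl⟩)
  have h4 := Submodule.finrank_mono h2
  omega

end scale

/-- equations descend along `φ`. -/
theorem AEZ_of_map {K : Type} [Field K] [CharZero K] (φ : K →+* AEQb) {k d : ℕ}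
    (Z : Set (MvPolynomial (Fin k × Fin d) ℚ)) (M : Matrix (Fin k) (Fin d) K)
    (h : AEZ Z (M.map φ)) : AEZ Z M := by
  intro f hf
  have h1 := h f hf
  have h2 := MvPolynomial.comp_aeval_apply (f := fun x : Fin k × Fin d => M x.1 x.2)
    φ.toRatAlgHom f
  apply φ.injective
  rw [map_zero]
  have h3 : (φ.toRatAlgHom) (aeval (fun x : Fin k × Fin d => M x.1 x.2) f)
      = φ (aeval (fun x : Fin k × Fin d => M x.1 x.2) f) := rfl
  rw [← h3, h2]
  exact h1

end Fermat.Agent.S17Lib
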